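import Fermat.Agent.CycloIndex.Maillet
import Mathlib.LinearAlgebra.Matrix.ToLinearEquiv
import Mathlib.Data.Nat.Bitwise

/-!
# Maillet's determinant modulo two from bit masks

The rows of a matrix over `ℤ/2` are numbers and addition is `^^^`: an inverse proves the determinant odd, a
kernel vector proves it even, both checkable by the kernel in `m²` operations.
-/

set_option autoImplicit false

noncomputable section

namespace FA.CycloParity

/-- The sum without carries of `f 0, …, f (n-1)`. -/
def xorSum (f : ℕ → ℕ) : ℕ → ℕ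
  | 0 => 0
  | n + 1 => xorSum f n ^^^ f n

/-- A bit as an element of `ℤ/2`. -/
def bitAt (n k : ℕ) : ZMod 2 := if n.testBit k then 1 else 0

theorem bitAt_xorSum (f : ℕ → ℕ) (k : ℕ) : ∀ n, bitAt (xorSum f n) k = ∑ j ∈ Finset.range n, bitAt (f j) k
  | 0 => by simp [xorSum, bitAt]
  | n + 1 => by
    rw [Finset.sum_range_succ, ← bitAt_xorSum f k n, xorSum]
    simp only [bitAt, Nat.testBit_xor]
    cases (xorSum f n).testBit k <;> cases (f n).testBit k <;> decide

/-- The `i`-th row of the product of Maillet's matrix, from inverse residues `v`, by the rows `N`. -/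
def productRow (p m : ℕ) (v N : List ℕ) (i : ℕ) : ℕ :=
  xorSum (fun j => if (i + 1) * v.getD j 0 % p % 2 = 1 then N.getD j 0 else 0) m

/-- The test for the inverse residues. -/
def inverseCheck (p m : ℕ) (v : List ℕ) : Bool := (List.range m).all fun j => (j + 1) * v.getD j 0 % p == 1

/-- The test for an odd determinant. -/
def oddCheck (p m : ℕ) (v N : List ℕ) : Bool :=
  inverseCheck p m v && (List.range m).all fun i => productRow p m v N i == 2 ^ i

/-- The test for an even determinant, with a kernel vector `y`. -/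
def evenCheck (p m : ℕ) (v : List ℕ) (y : ℕ) : Bool :=
  inverseCheck p m v && (List.range m).any (fun j => y.testBit j) &&
    (List.range m).all fun i => productRow p m v ((List.range m).map fun j => if y.testBit j then 1 else 0) i == 0

variable {p : ℕ} [Fact p.Prime] {m : ℕ}

/-- Maillet's matrix modulo two. -/
abbrev mailletTwo (p m : ℕ) [Fact p.Prime] : Matrix (Fin m) (Fin m) (ZMod 2) :=
  (FA.CycloIndex.mailletMatrix p m).map (Int.cast : ℤ → ZMod 2)

theorem det_mailletTwo : (mailletTwo p m).det = (((FA.CycloIndex.mailletMatrix p m).det : ℤ) : ZMod 2) :=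
  ((Int.castRingHom (ZMod 2)).map_det _).symm

theorem bitAt_productRow (hm : p = 2 * m + 1) {v N : List ℕ} (hv : inverseCheck p m v = true) (i : Fin m) (k : ℕ) :
    bitAt (productRow p m v N i) k = ∑ j : Fin m, mailletTwo p m i j * bitAt (N.getD j 0) k := by
  rw [productRow, bitAt_xorSum, Finset.sum_range]
  refine Finset.sum_congr rfl fun j _ => ?_
  have : NeZero p := ⟨(Fact.out : p.Prime).ne_zero⟩
  simp only [inverseCheck, List.all_eq_true, List.mem_range, beq_iff_eq] at hv
  have hinv : (((j.1 + 1 : ℕ) : ZMod p))⁻¹ = (v.getD j 0 : ZMod p) := by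
    refine inv_eq_of_mul_eq_one_right ?_
    rw [← Nat.cast_mul, ← ZMod.natCast_mod, hv j j.2, Nat.cast_one]
  have he : mailletTwo p m i j = (((i.1 + 1) * v.getD j 0 % p : ℕ) : ZMod 2) := by
    show ((FA.CycloIndex.mailletMatrix p m i j : ℤ) : ZMod 2) = _
    rw [FA.CycloIndex.mailletMatrix, Matrix.of_apply, Int.cast_natCast, FA.CycloIndex.mailletEntry, hinv, ← Nat.cast_mul, ZMod.val_natCast]
  rw [he, ← ZMod.natCast_mod _ 2]
  rcases Nat.mod_two_eq_zero_or_one ((i.1 + 1) * v.getD j 0 % p) with h | h
  · rw [h, if_neg zero_ne_one, Nat.cast_zero, zero_mul, bitAt, Nat.zero_testBit, if_neg Bool.false_ne_true]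
  · rw [h, if_pos rfl, Nat.cast_one, one_mul]

/-- An inverse shows the determinant odd. -/
theorem odd_det_of_check (hm : p = 2 * m + 1) {v N : List ℕ} (h : oddCheck p m v N = true) :
    Odd (FA.CycloIndex.mailletMatrix p m).det := by
  simp only [oddCheck, Bool.and_eq_true, List.all_eq_true, List.mem_range, beq_iff_eq] at h
  obtain ⟨hv, hN⟩ := h
  have hmul : mailletTwo p m * Matrix.of (fun j k : Fin m => bitAt (N.getD j 0) k) = 1 := by
    ext i k
    rw [Matrix.mul_apply]
    simp only [Matrix.of_apply]
    rw [← bitAt_productRow hm hv i k, hN i i.2, bitAt, Nat.testBit_two_pow, Matrix.one_apply]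
    simp [Fin.ext_iff]
  have hd := congrArg Matrix.det hmul
  rw [Matrix.det_mul, Matrix.det_one, det_mailletTwo] at hd
  refine Int.not_even_iff_odd.mp fun he => ?_
  rw [(ZMod.intCast_zmod_eq_zero_iff_dvd _ 2).mpr he.two_dvd, zero_mul] at hd
  exact zero_ne_one hd

/-- A kernel vector shows the determinant even. -/
theorem even_det_of_check (hm : p = 2 * m + 1) {v : List ℕ} {y : ℕ} (h : evenCheck p m v y = true) :
    Even (FA.CycloIndex.mailletMatrix p m).det := by
  simp only [evenCheck, Bool.and_eq_true, List.all_eq_true, List.any_eq_true, List.mem_range, beq_iff_eq] at h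
  obtain ⟨⟨hv, j₀, hj₀, hy⟩, hz⟩ := h
  have hker : Matrix.mulVec (mailletTwo p m) (fun j => bitAt y j) = 0 := funext fun i => by
    have hrow := bitAt_productRow (N := (List.range m).map fun j => if y.testBit j then 1 else 0) hm hv i 0
    rw [hz i i.2, bitAt, Nat.zero_testBit, if_neg Bool.false_ne_true] at hrow
    rw [Pi.zero_apply, Matrix.mulVec, dotProduct, hrow]
    refine Finset.sum_congr rfl fun j _ => ?_
    rw [List.getD_eq_getElem _ _ (by simpa using j.2), List.getElem_map, List.getElem_range]
    cases hb : y.testBit j <;> simp [bitAt, hb]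
  refine Int.even_iff.mpr (Int.emod_eq_zero_of_dvd ((ZMod.intCast_zmod_eq_zero_iff_dvd _ 2).mp ?_))
  rw [← det_mailletTwo, ← Matrix.exists_mulVec_eq_zero_iff]
  exact ⟨_, fun e => by simpa [bitAt, hy] using congrFun e ⟨j₀, hj₀⟩, hker⟩

end FA.CycloParity
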