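import Fermat.Agent.CycloParity.Signature
import Mathlib.LinearAlgebra.Matrix.ToLinearEquiv

/-!
# An odd Maillet determinant forces `h⁺` odd

Were `h⁺` even, some real unit outside the cyclotomic units would have its square among them; that square is
totally positive, and Maillet's matrix modulo two leaves only squares of cyclotomic units.
-/

set_option autoImplicit false

noncomputable section

open NumberField FA.Ext Finset

namespace FA.CycloParity

variable {p : ℕ} [Fact p.Prime] {m : ℕ}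

theorem two_ne_zero' (hm : p = 2 * m + 1) : (2 : ZMod p) ≠ 0 := fun h => by
  have := Nat.le_of_dvd two_pos ((ZMod.natCast_eq_zero_iff 2 p).mp (by exact_mod_cast h))
  have := (Fact.out : p.Prime).two_le
  omega

/-- The multiplier `(2 (j+1))⁻¹` of a column. -/
def columnUnit (hm : p = 2 * m + 1) (j : Fin m) : (ZMod p)ˣ :=
  Units.mk0 ((2 * ((j.1 + 1 : ℕ) : ZMod p))⁻¹)
    (inv_ne_zero (mul_ne_zero (two_ne_zero' hm) (FA.CycloIndex.halfVal_ne_zero hm j)))

theorem mailletEntry_mod_two (hm : p = 2 * m + 1) (i j : Fin m) :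
    (FA.CycloIndex.mailletEntry p i j : ZMod 2) =
      upperHalf p ((columnUnit hm j : ZMod p) * ((i.1 + 1 : ℕ) : ZMod p)) := by
  rw [← val_two_mul_eq_upperHalf, FA.CycloIndex.mailletEntry, columnUnit, Units.val_mk0]
  congr 2
  have := two_ne_zero' hm
  have := FA.CycloIndex.halfVal_ne_zero hm j
  field_simp

/-- The last column is `-1`. -/
theorem columnUnit_last (hm : p = 2 * m + 1) (h0 : 0 < m) :
    columnUnit hm ⟨m - 1, by omega⟩ = -1 := by
  have e : ((2 * m + 1 : ℕ) : ZMod p) = 0 := by rw [← hm, ZMod.natCast_self]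
  push_cast at e
  refine Units.ext ?_
  rw [columnUnit, Units.val_mk0, Units.val_neg, Units.val_one, show m - 1 + 1 = m by omega]
  exact inv_eq_of_mul_eq_one_right (by linear_combination -e)

/-- Every unit is a column up to sign. -/
theorem exists_columnUnit (hm : p = 2 * m + 1) (a : (ZMod p)ˣ) :
    ∃ j, a = columnUnit hm j ∨ a = -columnUnit hm j := by
  have : NeZero p := ⟨(Fact.out : p.Prime).ne_zero⟩
  have h2 := two_ne_zero' hm
  set v : ZMod p := (2 * (a : ZMod p))⁻¹ with hv
  have hv0 : v ≠ 0 := inv_ne_zero (mul_ne_zero h2 a.ne_zero)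
  have hpos : 0 < v.val := Nat.pos_of_ne_zero fun h => hv0 ((ZMod.val_eq_zero v).mp h)
  have hlt := ZMod.val_lt v
  by_cases h : v.val ≤ m
  · refine ⟨⟨v.val - 1, by omega⟩, Or.inl (Units.ext ?_)⟩
    rw [columnUnit, Units.val_mk0, show v.val - 1 + 1 = v.val by omega, ZMod.natCast_zmod_val, hv]
    field_simp
  · refine ⟨⟨p - v.val - 1, by omega⟩, Or.inr (Units.ext ?_)⟩
    rw [Units.val_neg, columnUnit, Units.val_mk0, show p - v.val - 1 + 1 = p - v.val by omega,
      Nat.cast_sub hlt.le, ZMod.natCast_self, zero_sub, ZMod.natCast_zmod_val, hv]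
    field_simp

variable (K : Type*) [Field K] [NumberField K] [IsCyclotomicExtension {p} ℚ K]

theorem charSin_neg (x : ZMod p) : charSin p (-x) = -charSin p x := by
  have : NeZero p := ⟨(Fact.out : p.Prime).ne_zero⟩
  rw [charSin, charSin, AddChar.map_neg_eq_conj, Complex.conj_im]

theorem realUnit_neg (hm : p = 2 * m + 1) (a : (ZMod p)ˣ) : realUnit p K (-a) = -realUnit p K a := by
  have : NeZero p := ⟨(Fact.out : p.Prime).ne_zero⟩
  have hp2 : p ≠ 2 := by omega
  set d : (ZMod p)ˣ := Units.mk0 2 (two_ne_zero' hm)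
  have hc : (d : ZMod p) = 2 * 1 := (mul_one _).symm
  refine unitEmb_injective K (FA.CycloIndex.emb p K d) ?_
  conv_rhs => rw [unitEmb_apply, Units.val_neg, RingOfIntegers.coe_eq_algebraMap, map_neg, map_neg,
    ← RingOfIntegers.coe_eq_algebraMap, ← unitEmb_apply, unitEmb_realUnit p K hp2 hc]
  rw [unitEmb_realUnit p K hp2 hc, Units.val_neg, neg_mul, charSin_neg, neg_div, Complex.ofReal_neg]

theorem zetaUnit_mem_torsion : zetaUnit p K ∈ Units.torsion K :=
  (CommGroup.mem_torsion _).mpr (isOfFinOrder_iff_pow_eq_one.mpr ⟨p, (Fact.out : p.Prime).pos, Units.ext (by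
    rw [Units.val_pow_eq_pow_val, zetaUnit, IsUnit.unit_spec, (zetaInt_spec p K).pow_eq_one, Units.val_one])⟩)

theorem cycloUnits_le (hm : p = 2 * m + 1) : FA.Regular.cycloUnits p K ≤
    Units.torsion K ⊔ Subgroup.closure (Set.range fun j : Fin m => realUnit p K (columnUnit hm j)) := by
  have hp : p.Prime := Fact.out
  have : NeZero p := ⟨hp.ne_zero⟩
  refine sup_le le_sup_left ((Subgroup.closure_le _).mpr ?_)
  rintro _ ⟨⟨a, ha⟩, rfl⟩
  set au : (ZMod p)ˣ := Units.mk0 (a : ZMod p) ha
  set T := Units.torsion K ⊔ Subgroup.closure (Set.range fun j : Fin m => realUnit p K (columnUnit hm j))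
  have hneg : (-1 : (𝓞 K)ˣ) ∈ T := Subgroup.mem_sup_left ((CommGroup.mem_torsion _).mpr
    (isOfFinOrder_iff_pow_eq_one.mpr ⟨2, two_pos, by simp⟩))
  have hau : realUnit p K au ∈ T := by
    obtain ⟨j, hj | hj⟩ := exists_columnUnit hm au
    · rw [hj]; exact Subgroup.mem_sup_right (Subgroup.subset_closure ⟨j, rfl⟩)
    · rw [hj, realUnit_neg K hm, ← neg_one_mul]
      exact mul_mem hneg (Subgroup.mem_sup_right (Subgroup.subset_closure ⟨j, rfl⟩))
  have he : FA.Regular.cycU p K ha =
      realUnit p K au * (zetaUnit p K ^ ((1 - (au : ZMod p)) * (2 : ZMod p)⁻¹).val)⁻¹ := by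
    rw [realUnit, mul_inv_cancel_right]
    refine Units.ext (mul_left_cancel₀ (sub_ne_zero.mpr ((zetaInt_spec p K).ne_one hp.one_lt)) ?_)
    simp only [FA.Regular.cycU, IsUnit.unit_spec, mul_geom_sum]
    congr 1
    rw [pow_eq_pow_mod a (zetaInt_spec p K).pow_eq_one]
    congr 1
    exact (ZMod.val_natCast p a).symm
  show FA.Regular.cycU p K ha ∈ T
  rw [he]
  exact mul_mem hau (inv_mem (Subgroup.mem_sup_left (pow_mem (zetaUnit_mem_torsion K) _)))

theorem realUnit_mem_cycloUnits (a : (ZMod p)ˣ) : realUnit p K a ∈ FA.Regular.cycloUnits p K :=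
  mul_mem (FA.Regular.cycU_mem_cycloUnits p K _) (Subgroup.mem_sup_left (pow_mem (zetaUnit_mem_torsion K) _))

/-- A totally positive square of a real unit among the cyclotomic units is the square of one of them. -/
theorem mem_cycloUnits_of_sq_mem (hm : p = 2 * m + 1) (h0 : 0 < m)
    (hdet : Odd (FA.CycloIndex.mailletMatrix p m).det) {r : (𝓞 K)ˣ}
    (hr : ∀ φ : K →+* ℂ, (unitEmb K φ r).im = 0) (h2 : r ^ 2 ∈ FA.Regular.cycloUnits p K) :
    r ∈ FA.Regular.cycloUnits p K := by
  have hp : p.Prime := Fact.out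
  have : NeZero p := ⟨hp.ne_zero⟩
  have hp2 : p ≠ 2 := by omega
  set ξ : Fin m → (𝓞 K)ˣ := fun j => realUnit p K (columnUnit hm j) with hξ
  obtain ⟨t, ht, x, hx, htx⟩ := Subgroup.mem_sup.mp (cycloUnits_le K hm h2)
  obtain ⟨e, rfl⟩ := Subgroup.mem_closure_range_iff_of_fintype.mp hx
  have h2ne := two_ne_zero' hm
  -- at the embedding of the row `i` all the units are real
  set d : Fin m → (ZMod p)ˣ := fun i =>
    Units.mk0 (2 * ((i.1 + 1 : ℕ) : ZMod p)) (mul_ne_zero h2ne (FA.CycloIndex.halfVal_ne_zero hm i))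
  set c : Fin m → ZMod p := fun i => ((i.1 + 1 : ℕ) : ZMod p)
  set s : Fin m → Fin m → ℝ := fun i j => charSin p ((columnUnit hm j : ZMod p) * c i) / charSin p (c i) with hs
  have hval : ∀ i j, unitEmb K (FA.CycloIndex.emb p K (d i)) (ξ j) = (s i j : ℂ) := fun i j =>
    unitEmb_realUnit p K hp2 (c := c i) rfl _
  have hc0 : ∀ i, c i ≠ 0 := fun i => FA.CycloIndex.halfVal_ne_zero hm i
  have hrow : ∀ i, 0 < charSin p (c i) := fun i => by
    obtain ⟨hne, hb⟩ := charSin_ne_zero (p := p) hp2 (hc0 i)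
    rw [upperHalf, FA.CycloIndex.halfVal hm i, if_neg (by have := i.2; omega), negBit] at hb
    rcases hne.lt_or_gt with h | h
    · rw [if_pos h] at hb
      exact absurd hb one_ne_zero
    · exact h
  have hs0 : ∀ i j, s i j ≠ 0 := fun i j => div_ne_zero
    (charSin_ne_zero hp2 (mul_ne_zero (columnUnit hm j).ne_zero (hc0 i))).1 (hrow i).ne'
  have hsbit : ∀ i j, negBit (s i j) = (FA.CycloIndex.mailletEntry p i j : ZMod 2) := fun i j => by
    rw [mailletEntry_mod_two hm, ← (charSin_ne_zero hp2 (mul_ne_zero (columnUnit hm j).ne_zero (hc0 i))).2]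
    simp only [negBit, s, div_neg_iff, hrow i, (hrow i).not_gt, and_false, and_true, false_or]
  have hprod : ∀ (i : Fin m) (f : Fin m → ℤ),
      unitEmb K (FA.CycloIndex.emb p K (d i)) (∏ j, ξ j ^ f j) = ((∏ j, s i j ^ f j : ℝ) : ℂ) := fun i f => by
    rw [map_prod, Complex.ofReal_prod]
    exact prod_congr rfl fun j _ => by rw [map_zpow, hval, Complex.ofReal_zpow]
  -- the root of unity is a sign
  have hsign : t = 1 ∨ t = -1 := by
    set i : Fin m := ⟨0, h0⟩
    set φ := FA.CycloIndex.emb p K (d i)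
    have h := congrArg (unitEmb K φ) htx
    rw [map_mul, map_pow, hprod i e] at h
    have hne : (∏ j, s i j ^ e j) ≠ 0 := prod_ne_zero_iff.mpr fun j _ => zpow_ne_zero _ (hs0 i j)
    have ht1 : ‖unitEmb K φ t‖ = 1 := by
      refine Complex.norm_eq_one_of_pow_eq_one (n := Units.torsionOrder K) ?_ (Units.torsionOrder_ne_zero K)
      rw [← map_pow, show t ^ Units.torsionOrder K = 1 by
        rwa [← Units.rootsOfUnity_eq_torsion K, mem_rootsOfUnity] at ht, map_one]
    have htre : (unitEmb K φ t).im = 0 := by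
      have h' := congrArg Complex.im h
      simp only [Complex.mul_im, Complex.ofReal_re, Complex.ofReal_im, mul_zero, zero_add, sq, hr φ, add_zero,
        zero_mul] at h'
      exact (mul_eq_zero.mp h').resolve_right hne
    rw [← Complex.re_add_im (unitEmb K φ t), htre, Complex.ofReal_zero, zero_mul, add_zero, Complex.norm_real,
      Real.norm_eq_abs] at ht1
    rcases eq_or_eq_neg_of_abs_eq ht1 with h1 | h1
    · left
      refine unitEmb_injective K φ (Complex.ext ?_ ?_)
      · rw [map_one, h1, Complex.one_re]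
      · rw [map_one, htre, Complex.one_im]
    · right
      have hn1 : unitEmb K φ (-1) = -1 := by simp [unitEmb_apply]
      refine unitEmb_injective K φ (Complex.ext ?_ ?_)
      · rw [hn1, h1, Complex.neg_re, Complex.one_re]
      · rw [hn1, htre, Complex.neg_im, Complex.one_im, neg_zero]
  -- absorb it in the last column
  obtain ⟨e', he'⟩ : ∃ e' : Fin m → ℤ, r ^ 2 = ∏ j, ξ j ^ e' j := by
    rcases hsign with rfl | rfl
    · exact ⟨e, by rw [← htx, one_mul]⟩
    · refine ⟨Function.update e ⟨m - 1, by omega⟩ (e ⟨m - 1, by omega⟩ + 1), ?_⟩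
      set l : Fin m := ⟨m - 1, by omega⟩
      have hl : ξ l = -1 := by
        rw [hξ]
        show realUnit p K (columnUnit hm l) = -1
        rw [columnUnit_last hm h0, realUnit_neg K hm]
        congr 1
        refine unitEmb_injective K (FA.CycloIndex.emb p K (d ⟨0, h0⟩)) ?_
        rw [unitEmb_realUnit p K hp2 (c := c ⟨0, h0⟩) rfl, map_one, Units.val_one, one_mul,
          div_self (hrow _).ne', Complex.ofReal_one]
      have hers : ∏ j ∈ univ.erase l, ξ j ^ Function.update e l (e l + 1) j = ∏ j ∈ univ.erase l, ξ j ^ e j :=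
        prod_congr rfl fun j hj => by rw [Function.update_of_ne (ne_of_mem_erase hj)]
      rw [← htx, ← mul_prod_erase univ (fun j => ξ j ^ Function.update e l (e l + 1) j) (mem_univ l), hers,
        ← mul_prod_erase univ (fun j => realUnit p K (columnUnit hm j) ^ e j) (mem_univ l), Function.update_self,
        zpow_add_one, hl]
      simp only [show ∀ j, realUnit p K (columnUnit hm j) = ξ j from fun _ => rfl, hl]
      ac_rfl
  -- the exponents are even
  set M₂ : Matrix (Fin m) (Fin m) (ZMod 2) := (FA.CycloIndex.mailletMatrix p m).map (Int.cast : ℤ → ZMod 2) with hM₂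
  have hdet₂ : M₂.det ≠ 0 := by
    rw [hM₂, show ((FA.CycloIndex.mailletMatrix p m).map (Int.cast : ℤ → ZMod 2)).det =
      (((FA.CycloIndex.mailletMatrix p m).det : ℤ) : ZMod 2) from ((Int.castRingHom (ZMod 2)).map_det _).symm]
    intro h
    exact Int.not_even_iff_odd.mpr hdet (even_iff_two_dvd.mpr ((ZMod.intCast_zmod_eq_zero_iff_dvd _ 2).mp h))
  have hker : Matrix.mulVec M₂ (fun j => (e' j : ZMod 2)) = 0 := funext fun i => by
    have h := congrArg (unitEmb K (FA.CycloIndex.emb p K (d i))) he'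
    rw [map_pow, hprod i e'] at h
    have hpos : ¬ (∏ j, s i j ^ e' j) < 0 := by
      have h' := congrArg Complex.re h
      simp only [sq, Complex.mul_re, hr (FA.CycloIndex.emb p K (d i)), mul_zero, sub_zero, Complex.ofReal_re] at h'
      rw [← h']
      exact (mul_self_nonneg _).not_gt
    have h0' : negBit (∏ j, s i j ^ e' j) = 0 := if_neg hpos
    rw [negBit_prod _ _ (fun j _ => zpow_ne_zero _ (hs0 i j))] at h0'
    rw [Pi.zero_apply, ← h0', Matrix.mulVec, dotProduct]
    refine sum_congr rfl fun j _ => ?_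
    rw [negBit_zpow (hs0 i j), hsbit, mul_comm, hM₂, Matrix.map_apply, FA.CycloIndex.mailletMatrix, Matrix.of_apply,
      Int.cast_natCast]
  have heven := Matrix.eq_zero_of_mulVec_eq_zero hdet₂ hker
  set w : (𝓞 K)ˣ := ∏ j, ξ j ^ (e' j / 2)
  have hw : r ^ 2 = w ^ 2 := by
    rw [he', ← prod_pow]
    refine prod_congr rfl fun j _ => ?_
    rw [← zpow_natCast, ← zpow_mul]
    congr 1
    exact (Int.ediv_mul_cancel ((ZMod.intCast_zmod_eq_zero_iff_dvd _ 2).mp (congrFun heven j))).symm
  have hwC : w ∈ FA.Regular.cycloUnits p K := prod_mem fun j _ => zpow_mem (realUnit_mem_cycloUnits K _) _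
  rw [← div_mul_cancel r w]
  refine mul_mem (Subgroup.mem_sup_left ((CommGroup.mem_torsion _).mpr (isOfFinOrder_iff_pow_eq_one.mpr
    ⟨2, two_pos, ?_⟩))) hwC
  rw [div_pow, hw, div_self']

/-- **`h⁺` is odd when Maillet's determinant is**. -/
theorem not_two_dvd_real (hm : p = 2 * m + 1) (hm2 : 2 ≤ m)
    (hdet : Odd (FA.CycloIndex.mailletMatrix p m).det) : ¬ 2 ∣ classNumber (maximalRealSubfield K) := by
  have hp : p.Prime := Fact.out
  have : IsCMField K := IsCyclotomicExtension.Rat.isCMField K (S := {p}) ⟨p, rfl, by omega⟩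
  have hidx := FA.CycloIndex.index_cycloUnits (p := p) K (by omega)
  intro h
  set C := FA.Regular.cycloUnits p K
  have : C.FiniteIndex := ⟨by rw [hidx]; exact (Fintype.card_pos).ne'⟩
  rw [← hidx, Subgroup.index_eq_card] at h
  obtain ⟨q, hq⟩ := exists_prime_orderOf_dvd_card' (hp := ⟨Nat.prime_two⟩) 2 h
  obtain ⟨u, rfl⟩ := QuotientGroup.mk'_surjective C q
  have hu : u ∉ C := fun hu => by
    rw [show QuotientGroup.mk' C u = 1 from (QuotientGroup.eq_one_iff u).mpr hu, orderOf_one] at hq
    omega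
  have hu2 : u ^ 2 ∈ C := (QuotientGroup.eq_one_iff (u ^ 2)).mp (by
    show QuotientGroup.mk' C (u ^ 2) = 1
    rw [map_pow, ← hq, pow_orderOf_eq_one])
  have htop : IsCMField.realUnits K ⊔ Units.torsion K = ⊤ :=
    Subgroup.index_eq_one.mp (FA.CycloIndex.indexRealUnits_eq_one p K (by omega))
  obtain ⟨r, hrR, t, ht, rfl⟩ := Subgroup.mem_sup.mp (htop ▸ Subgroup.mem_top u)
  have htC : t ∈ C := Subgroup.mem_sup_left ht
  refine hu (mul_mem (mem_cycloUnits_of_sq_mem K hm (by omega) hdet (fun φ => ?_) ?_) htC)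
  · obtain ⟨v, rfl⟩ := hrR
    have h' := IsCMField.complexEmbedding_complexConj K φ
      ((algebraMap (𝓞 (maximalRealSubfield K)) (𝓞 K) (v : 𝓞 (maximalRealSubfield K)) : 𝓞 K) : K)
    change φ (IsCMField.complexConj K
      (algebraMap (maximalRealSubfield K) K ((v : 𝓞 (maximalRealSubfield K)) : maximalRealSubfield K))) = _ at h'
    rw [AlgEquiv.commutes] at h'
    exact Complex.conj_eq_iff_im.mp h'.symm
  · rw [mul_pow] at hu2
    exact (mul_mem_cancel_right (pow_mem htC 2)).mp hu2

end FA.CycloParity
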