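import Fermat.Agent.CycloIndex.Maillet

/-!
# Signatures of the real cyclotomic units of `ℚ(ζ_p)`

`realUnit a` is `ζ^((1-a)/2) (ζ^a - 1)/(ζ - 1)`: at the embedding `ζ ↦ e(2c)` it is `sin(a c)/sin(c)`, so its
signs are, modulo two, a column of Maillet's matrix.
-/

set_option autoImplicit false

noncomputable section

open NumberField FA.Ext Finset
open scoped ComplexConjugate

namespace FA.CycloParity

variable (p : ℕ) [Fact p.Prime]

/-- The imaginary part of `e(x)`. -/
def charSin (x : ZMod p) : ℝ := (ZMod.stdAddChar x : ℂ).im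

/-- The indicator of the second half of the residues. -/
def upperHalf (x : ZMod p) : ZMod 2 := if p < 2 * x.val then 1 else 0

/-- The parity of the sign of a real number. -/
def negBit (x : ℝ) : ZMod 2 := if x < 0 then 1 else 0

theorem negBit_mul {x y : ℝ} (hx : x ≠ 0) (hy : y ≠ 0) : negBit (x * y) = negBit x + negBit y := by
  rcases hx.lt_or_gt with hx | hx <;> rcases hy.lt_or_gt with hy | hy <;>
    simp [negBit, mul_neg_iff, hx, hy, hx.not_gt, hy.not_gt] <;> decide

theorem negBit_zpow {x : ℝ} (hx : x ≠ 0) (e : ℤ) : negBit (x ^ e) = (e : ZMod 2) * negBit x := by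
  rcases Int.even_or_odd e with he | he
  · rw [show (e : ZMod 2) = 0 from (ZMod.intCast_zmod_eq_zero_iff_dvd e 2).mpr he.two_dvd, zero_mul, negBit,
      if_neg (he.zpow_nonneg x).not_gt]
  · rw [show (e : ZMod 2) = 1 by obtain ⟨k, rfl⟩ := he; push_cast; rw [show (2 : ZMod 2) = 0 by decide]; simp,
      one_mul, negBit, negBit]
    simp [he.zpow_neg_iff]

theorem negBit_prod {ι : Type*} (s : Finset ι) (f : ι → ℝ) (hf : ∀ i ∈ s, f i ≠ 0) :
    negBit (∏ i ∈ s, f i) = ∑ i ∈ s, negBit (f i) := by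
  classical
  induction s using Finset.induction with
  | empty => simp [negBit]
  | insert a s ha ih =>
    rw [prod_insert ha, sum_insert ha, negBit_mul (hf a (mem_insert_self _ _))
      (prod_ne_zero_iff.mpr fun i hi => hf i (mem_insert_of_mem hi)), ih fun i hi => hf i (mem_insert_of_mem hi)]

variable {p}

theorem stdAddChar_two_mul_sub_one (u : ZMod p) :
    (ZMod.stdAddChar (2 * u) : ℂ) - 1 = ZMod.stdAddChar u * ((2 * charSin p u : ℝ) * Complex.I) := by
  have : NeZero p := ⟨(Fact.out : p.Prime).ne_zero⟩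
  rw [charSin, ← Complex.sub_conj, ← AddChar.map_neg_eq_conj, mul_sub, ← AddChar.map_add_eq_mul,
    ← AddChar.map_add_eq_mul, add_neg_cancel, AddChar.map_zero_eq_one, two_mul]

theorem charSin_eq (x : ZMod p) : charSin p x = Real.sin (2 * Real.pi * x.val / p) := by
  have : NeZero p := ⟨(Fact.out : p.Prime).ne_zero⟩
  rw [charSin, ZMod.stdAddChar_apply, ZMod.toCircle_apply,
    show (2 * (Real.pi : ℂ) * Complex.I * (x.val : ℂ) / (p : ℂ)) = ((2 * Real.pi * x.val / p : ℝ) : ℂ) * Complex.I by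
      push_cast; ring, Complex.exp_ofReal_mul_I_im]

theorem charSin_ne_zero (hp2 : p ≠ 2) {x : ZMod p} (hx : x ≠ 0) :
    charSin p x ≠ 0 ∧ negBit (charSin p x) = upperHalf p x := by
  have hp : p.Prime := Fact.out
  have : NeZero p := ⟨hp.ne_zero⟩
  have hv0 : 0 < x.val := Nat.pos_of_ne_zero fun h => hx ((ZMod.val_eq_zero x).mp h)
  have hvp : x.val < p := ZMod.val_lt x
  have hp0 : (0 : ℝ) < p := Nat.cast_pos.mpr hp.pos
  have hπ := Real.pi_pos
  rw [charSin_eq, negBit, upperHalf]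
  by_cases h : p < 2 * x.val
  · have h' : (p : ℝ) < 2 * x.val := by exact_mod_cast h
    have h'' : (x.val : ℝ) < p := by exact_mod_cast hvp
    have hneg : Real.sin (2 * Real.pi * x.val / p) < 0 := by
      rw [← Real.sin_sub_two_pi]
      refine Real.sin_neg_of_neg_of_neg_pi_lt ?_ ?_
      · rw [sub_neg, div_lt_iff₀ hp0]; nlinarith
      · rw [lt_sub_iff_add_lt, lt_div_iff₀ hp0]; nlinarith
    exact ⟨hneg.ne, by rw [if_pos hneg, if_pos h]⟩
  · have h1 : 2 * x.val ≠ p := fun e => by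
      rcases hp.eq_two_or_odd with e' | e' <;> omega
    have h' : (2 * x.val : ℝ) < p := by exact_mod_cast (show 2 * x.val < p by omega)
    have h0 : (0 : ℝ) < x.val := Nat.cast_pos.mpr hv0
    have hpos : 0 < Real.sin (2 * Real.pi * x.val / p) :=
      Real.sin_pos_of_pos_of_lt_pi (by positivity) (by rw [div_lt_iff₀ hp0]; nlinarith)
    exact ⟨hpos.ne', by rw [if_neg hpos.not_gt, if_neg h]⟩

/-- Maillet's entries modulo two. -/
theorem val_two_mul_eq_upperHalf (x : ZMod p) : ((2 * x).val : ZMod 2) = upperHalf p x := by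
  have : NeZero p := ⟨(Fact.out : p.Prime).ne_zero⟩
  have hv : (2 * x).val = (2 * x.val) % p := by
    rw [← ZMod.val_natCast]; push_cast; rw [ZMod.natCast_zmod_val]
  have hx := ZMod.val_lt x
  rw [hv, upperHalf]
  by_cases h : p < 2 * x.val
  · have hp : p % 2 = 1 := (Fact.out : p.Prime).eq_two_or_odd.resolve_left (by omega)
    rw [if_pos h, Nat.mod_eq_sub_mod h.le, Nat.mod_eq_of_lt (by omega)]
    exact ZMod.natCast_eq_one_iff_odd.mpr (Nat.odd_iff.mpr (by omega))
  · rw [if_neg h]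
    rcases (show 2 * x.val = p ∨ 2 * x.val < p by omega) with e | e
    · rw [e, Nat.mod_self, Nat.cast_zero]
    · rw [Nat.mod_eq_of_lt e, Nat.cast_mul, show ((2 : ℕ) : ZMod 2) = 0 from rfl, zero_mul]

variable (p) (K : Type*) [Field K] [NumberField K] [IsCyclotomicExtension {p} ℚ K]

/-- `ζ` as a unit. -/
def zetaUnit : (𝓞 K)ˣ := ((zetaInt_spec p K).isUnit (Fact.out : p.Prime).ne_zero).unit

/-- The real cyclotomic unit of `a`. -/
def realUnit (a : (ZMod p)ˣ) : (𝓞 K)ˣ :=
  FA.Regular.cycU p K (a := (a : ZMod p).val)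
      (by have : NeZero p := ⟨(Fact.out : p.Prime).ne_zero⟩; rw [ZMod.natCast_zmod_val]; exact a.ne_zero) *
    zetaUnit p K ^ ((1 - (a : ZMod p)) * (2 : ZMod p)⁻¹).val

/-- The units as complex numbers under an embedding. -/
def unitEmb (φ : K →+* ℂ) : (𝓞 K)ˣ →* ℂ :=
  ((φ.comp (algebraMap (𝓞 K) K)).toMonoidHom).comp (Units.coeHom (𝓞 K))

theorem unitEmb_apply (φ : K →+* ℂ) (u : (𝓞 K)ˣ) : unitEmb K φ u = φ ((u : 𝓞 K) : K) := rfl

theorem unitEmb_injective (φ : K →+* ℂ) : Function.Injective (unitEmb K φ) := fun _ _ h =>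
  Units.ext (RingOfIntegers.coe_injective (φ.injective h))

theorem emb_zeta_pow (d : (ZMod p)ˣ) (n : ℕ) :
    FA.CycloIndex.emb p K d ((zetaInt p K ^ n : 𝓞 K) : K) = ZMod.stdAddChar ((n : ZMod p) * (d : ZMod p)) := by
  have : NeZero p := ⟨(Fact.out : p.Prime).ne_zero⟩
  rw [RingOfIntegers.coe_eq_algebraMap, map_pow, map_pow, ← RingOfIntegers.coe_eq_algebraMap,
    FA.CycloIndex.emb_zeta, ← AddChar.map_nsmul_eq_pow, nsmul_eq_mul]

/-- **The value of a real cyclotomic unit**. -/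
theorem unitEmb_realUnit (hp2 : p ≠ 2) {d : (ZMod p)ˣ} {c : ZMod p} (hc : (d : ZMod p) = 2 * c) (a : (ZMod p)ˣ) :
    unitEmb K (FA.CycloIndex.emb p K d) (realUnit p K a) = ((charSin p (a * c) / charSin p c : ℝ) : ℂ) := by
  have hp : p.Prime := Fact.out
  have : NeZero p := ⟨hp.ne_zero⟩
  have h2 : (2 : ZMod p) ≠ 0 := fun h => by
    have := Nat.le_of_dvd two_pos ((ZMod.natCast_eq_zero_iff 2 p).mp (by exact_mod_cast h))
    have := hp.two_le
    omega
  have hc0 : c ≠ 0 := fun h => d.ne_zero (by rw [hc, h, mul_zero])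
  have hs := (charSin_ne_zero hp2 hc0).1
  set φ := FA.CycloIndex.emb p K d
  have hgeom : (zetaInt p K - 1) * (realUnit p K a : 𝓞 K) =
      (zetaInt p K ^ (a : ZMod p).val - 1) * zetaInt p K ^ ((1 - (a : ZMod p)) * (2 : ZMod p)⁻¹).val := by
    rw [realUnit, Units.val_mul, Units.val_pow_eq_pow_val, FA.Regular.cycU, IsUnit.unit_spec, zetaUnit,
      IsUnit.unit_spec, ← mul_assoc, mul_geom_sum]
  have h := congrArg (fun t : 𝓞 K => φ (t : K)) hgeom
  simp only [RingOfIntegers.coe_eq_algebraMap, map_mul, map_sub, map_one] at h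
  simp only [← RingOfIntegers.coe_eq_algebraMap] at h
  rw [emb_zeta_pow, emb_zeta_pow, FA.CycloIndex.emb_zeta, ZMod.natCast_zmod_val,
    ZMod.natCast_zmod_val, hc, mul_left_comm (a : ZMod p) 2 c, stdAddChar_two_mul_sub_one, stdAddChar_two_mul_sub_one,
    mul_assoc (1 - (a : ZMod p)), ← mul_assoc (2 : ZMod p)⁻¹, inv_mul_cancel₀ h2, one_mul,
    mul_right_comm (ZMod.stdAddChar ((a : ZMod p) * c)), ← AddChar.map_add_eq_mul,
    show (a : ZMod p) * c + (1 - (a : ZMod p)) * c = c by ring] at h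
  rw [unitEmb_apply]
  refine mul_left_cancel₀ (mul_ne_zero (a := (ZMod.stdAddChar c : ℂ)) (AddChar.val_isUnit _ _).ne_zero
    (mul_ne_zero (Complex.ofReal_ne_zero.mpr (mul_ne_zero two_ne_zero hs)) Complex.I_ne_zero)) ?_
  rw [h]
  push_cast
  have hs' : (charSin p c : ℂ) ≠ 0 := Complex.ofReal_ne_zero.mpr hs
  field_simp

end FA.CycloParity
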